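import Mathlib

/-!
# S41 / IH / Arith : the arithmetic of step 7 of `S41-IHARA (lead)` (Dirichlet + CRT)
-/

set_option autoImplicit false

namespace Fermat.Agent.S41.IH

/-- Dirichlet's theorem, integer form. -/
theorem exists_prime_int (m : ℤ) (hm : m ≠ 0) (a : ℤ) (h : IsCoprime a m) (B : ℕ) :
    ∃ l : ℕ, B < l ∧ l.Prime ∧ (l : ℤ) ≡ a [ZMOD m] := by
  have hm' : (0 : ℤ) < (m.natAbs : ℤ) := by
    have := Int.natAbs_pos.mpr hm
    exact_mod_cast this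
  have h0 : 0 ≤ a % (m.natAbs : ℤ) := Int.emod_nonneg _ hm'.ne'
  obtain ⟨a1, ha1⟩ : ∃ a1 : ℕ, (a1 : ℤ) = a % (m.natAbs : ℤ) :=
    ⟨(a % (m.natAbs : ℤ)).toNat, Int.toNat_of_nonneg h0⟩
  have hmod : (a1 : ℤ) ≡ a [ZMOD m] := by
    rw [ha1]
    refine Int.modEq_iff_dvd.mpr ?_
    have := Int.emod_add_mul_ediv a (m.natAbs : ℤ)
    have h2 : m ∣ (m.natAbs : ℤ) := Int.dvd_natAbs.mpr dvd_rfl
    have h3 : a - a % (m.natAbs : ℤ) = (m.natAbs : ℤ) * (a / (m.natAbs : ℤ)) := by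
      linear_combination -this
    rw [h3]
    exact h2.mul_right _
  have hcop : Nat.Coprime a1 m.natAbs := by
    obtain ⟨t, ht⟩ := hmod.dvd
    have h1 : IsCoprime (a1 : ℤ) m := by
      have : (a1 : ℤ) = a + m * (-t) := by linear_combination -ht
      rw [this]
      exact h.add_mul_left_left _
    have := Int.isCoprime_iff_gcd_eq_one.mp h1
    rwa [Int.gcd, Int.natAbs_natCast] at this
  obtain ⟨l, hl, hlp, hlm⟩ := Nat.forall_exists_prime_gt_and_modEq B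
    (Int.natAbs_ne_zero.mpr hm) hcop
  refine ⟨l, hl, hlp, ?_⟩
  have h1 : (l : ℤ) ≡ (a1 : ℤ) [ZMOD (m.natAbs : ℤ)] := Int.natCast_modEq_iff.mpr hlm
  have h2 : (l : ℤ) ≡ (a1 : ℤ) [ZMOD m] :=
    Int.modEq_iff_dvd.mpr (Int.natAbs_dvd.mp (Int.modEq_iff_dvd.mp h1))
  exact h2.trans hmod

/-- CRT, integer form. -/
theorem crt_int {m n : ℤ} (h : IsCoprime m n) (a b : ℤ) :
    ∃ z : ℤ, z ≡ a [ZMOD m] ∧ z ≡ b [ZMOD n] := by
  obtain ⟨u, v, huv⟩ := h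
  refine ⟨a * (v * n) + b * (u * m), ?_, ?_⟩
  · exact Int.modEq_iff_dvd.mpr ⟨a * u - b * u, by linear_combination (-a) * huv⟩
  · exact Int.modEq_iff_dvd.mpr ⟨b * v - a * v, by linear_combination (-b) * huv⟩

theorem isCoprime_of_modEq {z a m : ℤ} (h : z ≡ a [ZMOD m]) (ha : IsCoprime a m) :
    IsCoprime z m := by
  obtain ⟨t, ht⟩ := h.dvd
  have : z = a + m * (-t) := by linear_combination -ht
  rw [this]
  exact ha.add_mul_left_left _

/-- first prime : `l ≡ d mod c`, `l ≡ 1 mod p`. -/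
theorem exists_prime_l {p : ℕ} (hp : p.Prime) {c d : ℤ} (hc : c ≠ 0) (hcd : IsCoprime c d)
    (h : ¬ (p : ℤ) ∣ c ∨ d ≡ 1 [ZMOD p]) (B : ℕ) :
    ∃ l : ℕ, B < l ∧ l.Prime ∧ (l : ℤ) ≡ d [ZMOD c] ∧ (l : ℤ) ≡ 1 [ZMOD p] := by
  have hpp : Prime (p : ℤ) := Nat.prime_iff_prime_int.mp hp
  by_cases hpc : (p : ℤ) ∣ c
  · have hd := h.resolve_left (not_not.mpr hpc)
    obtain ⟨l, hl, hlp, hlm⟩ := exists_prime_int c hc d hcd.symm B
    exact ⟨l, hl, hlp, hlm, (hlm.of_dvd hpc).trans hd⟩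
  · have hcp : IsCoprime c (p : ℤ) := ((Prime.coprime_iff_not_dvd hpp).mpr hpc).symm
    obtain ⟨z, hz1, hz2⟩ := crt_int hcp d 1
    have hz : IsCoprime z (c * p) :=
      (isCoprime_of_modEq hz1 hcd.symm).mul_right (isCoprime_of_modEq hz2 isCoprime_one_left)
    obtain ⟨l, hl, hlp, hlm⟩ := exists_prime_int (c * p) (mul_ne_zero hc hpp.ne_zero) z hz B
    exact ⟨l, hl, hlp, (hlm.of_dvd (Dvd.intro _ rfl)).trans hz1,
      (hlm.of_dvd (Dvd.intro_left _ rfl)).trans hz2⟩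

/-- second prime. -/
theorem exists_prime_r {l : ℕ} (hl : l.Prime) (hl2 : l ≠ 2) {N c : ℤ} (hlN : IsCoprime (l : ℤ) N)
    (hlc : ¬ (l : ℤ) ∣ c) {E : ℕ} (hE0 : 0 < E) (hEl : E < l) (B : ℕ) :
    ∃ r : ℕ, B < r ∧ r.Prime ∧ c ≡ N * r [ZMOD l] ∧ Nat.gcd E (r - 1) ∣ 2 := by
  have hpl : Prime (l : ℤ) := Nat.prime_iff_prime_int.mp hl
  obtain ⟨a, m0, hm0, hE⟩ := Nat.exists_eq_two_pow_mul_odd hE0.ne'
  have hm0pos : 0 < m0 := hm0.pos
  have hm0le : m0 ≤ E := by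
    rw [hE]
    exact Nat.le_mul_of_pos_left _ (by positivity)
  -- coprimalities
  have c1 : IsCoprime (l : ℤ) 4 := by
    have : IsCoprime (l : ℤ) 2 := by
      refine (Prime.coprime_iff_not_dvd hpl).mpr ?_
      intro h
      have h2 : l ∣ 2 := by exact_mod_cast h
      exact hl2 ((Nat.prime_dvd_prime_iff_eq hl Nat.prime_two).mp h2)
    have := this.pow_right (n := 2)
    norm_num at this
    exact this
  have c2 : IsCoprime (l : ℤ) (m0 : ℤ) := by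
    refine (Prime.coprime_iff_not_dvd hpl).mpr ?_
    intro h
    have := Nat.le_of_dvd hm0pos (Int.natCast_dvd_natCast.mp h)
    omega
  have c3 : IsCoprime (2 : ℤ) (m0 : ℤ) := by
    obtain ⟨t, ht⟩ := hm0
    exact ⟨-(t : ℤ), 1, by rw [ht]; push_cast; ring⟩
  have c4 : IsCoprime (4 : ℤ) (m0 : ℤ) := by
    have := c3.pow_left (m := 2)
    norm_num at this
    exact this
  -- the residue mod l
  obtain ⟨u, v, huv⟩ := hlN
  -- v * N ≡ 1 mod l
  obtain ⟨z1, hz1l, hz14⟩ := crt_int c1 (v * c) 3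
  obtain ⟨z, hz1, hzm⟩ := crt_int (c2.mul_left c4) z1 2
  have hzl : z ≡ v * c [ZMOD l] := (hz1.of_dvd (Dvd.intro _ rfl)).trans hz1l
  have hz4 : z ≡ 3 [ZMOD 4] := (hz1.of_dvd (Dvd.intro_left _ rfl)).trans hz14
  have hvl : ¬ (l : ℤ) ∣ v := by
    intro h
    exact hpl.not_isUnit (isUnit_of_dvd_one (by
      rw [← huv]; exact dvd_add (Dvd.intro_left _ rfl) (h.mul_right _)))
  have k1 : IsCoprime z (l : ℤ) := by
    refine isCoprime_of_modEq hzl ?_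
    refine ((Prime.coprime_iff_not_dvd hpl).mpr ?_).symm
    intro h
    rcases hpl.dvd_or_dvd h with h | h
    · exact hvl h
    · exact hlc h
  have k2 : IsCoprime z 4 := by
    refine isCoprime_of_modEq hz4 ?_
    exact ⟨-1, 1, by norm_num⟩
  have k3 : IsCoprime z (m0 : ℤ) := isCoprime_of_modEq hzm c3
  have hm0ne : (m0 : ℤ) ≠ 0 := by exact_mod_cast hm0pos.ne'
  obtain ⟨r, hr, hrp, hrm⟩ := exists_prime_int ((l : ℤ) * 4 * m0)
    (mul_ne_zero (mul_ne_zero hpl.ne_zero (by norm_num)) hm0ne) z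
    ((k1.mul_right k2).mul_right k3) B
  have hrl : (r : ℤ) ≡ v * c [ZMOD l] :=
    (hrm.of_dvd ⟨4 * m0, by ring⟩).trans hzl
  have hr4 : (r : ℤ) ≡ 3 [ZMOD 4] := (hrm.of_dvd ⟨(l : ℤ) * m0, by ring⟩).trans hz4
  have hrm0 : (r : ℤ) ≡ 2 [ZMOD m0] := (hrm.of_dvd ⟨(l : ℤ) * 4, by ring⟩).trans hzm
  refine ⟨r, hr, hrp, ?_, ?_⟩
  · have h1 : N * (r : ℤ) ≡ N * (v * c) [ZMOD l] := hrl.mul_left N
    refine (h1.trans ?_).symm
    exact Int.modEq_iff_dvd.mpr ⟨u * c, by linear_combination (-c) * huv⟩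
  · have hr1 : 1 ≤ r := hrp.one_lt.le
    have hcast : ((r - 1 : ℕ) : ℤ) = (r : ℤ) - 1 := by push_cast [hr1]; ring
    -- gcd with m0
    have g1 : Nat.Coprime (r - 1) m0 := by
      have : IsCoprime ((r - 1 : ℕ) : ℤ) (m0 : ℤ) := by
        rw [hcast]
        refine isCoprime_of_modEq (a := 1) ?_ isCoprime_one_left
        have := hrm0.sub_right 1
        norm_num at this
        exact this
      exact Nat.isCoprime_iff_coprime.mp this
    have g2 : Nat.gcd E (r - 1) ∣ 2 ^ a := by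
      have h1 : Nat.gcd E (r - 1) ∣ 2 ^ a * m0 := hE ▸ Nat.gcd_dvd_left _ _
      have h2 : Nat.Coprime (Nat.gcd E (r - 1)) m0 :=
        Nat.Coprime.coprime_dvd_left (Nat.gcd_dvd_right _ _) g1
      exact h2.dvd_of_dvd_mul_right h1
    obtain ⟨b, _, hb⟩ := (Nat.dvd_prime_pow Nat.prime_two).mp g2
    have hb1 : b ≤ 1 := by
      by_contra hcon
      have h4 : 4 ∣ Nat.gcd E (r - 1) := by
        rw [hb]
        exact (by norm_num : 4 = 2 ^ 2) ▸ pow_dvd_pow 2 (by omega)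
      have h5 : (4 : ℤ) ∣ ((r - 1 : ℕ) : ℤ) := by
        exact_mod_cast h4.trans (Nat.gcd_dvd_right _ _)
      rw [hcast] at h5
      have h6 := hr4.dvd
      omega
    rw [hb]
    exact (by norm_num : 2 = 2 ^ 1) ▸ pow_dvd_pow 2 hb1

theorem pow_totient_int {l : ℕ} {c : ℤ} (h : IsCoprime (l : ℤ) c) :
    (l : ℤ) ^ (Nat.totient c.natAbs) ≡ 1 [ZMOD c] := by
  have hcop : Nat.Coprime l c.natAbs := by
    have := Int.isCoprime_iff_gcd_eq_one.mp h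
    rwa [Int.gcd, Int.natAbs_natCast] at this
  have h1 := Nat.ModEq.pow_totient hcop
  have h2 := (Int.natCast_modEq_iff.mpr h1)
  rw [Nat.cast_pow, Nat.cast_one] at h2
  exact Int.modEq_iff_dvd.mpr (Int.natAbs_dvd.mp (Int.modEq_iff_dvd.mp h2))

end Fermat.Agent.S41.IH
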