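import Fermat.Agent.S41.IH.Main
import Fermat.Agent.S16.LDefs

/-!
# S41 / IH / Bridge : Ihara's lemma for additive characters of `Gamma0 N`
-/

set_option autoImplicit false

open scoped MatrixGroups
open CongruenceSubgroup

namespace Fermat.Agent.S41.IH

open Fermat.Agent.S16.Lower (HData matT matD matU)

variable {k : Type*} [Field k]

/-- the element `[[a,b],[c,d]]` of `Γ₀(N)`. -/
def mkG (N : ℕ) (a b c d : ℤ) (h : a * d - b * c = 1) (hc : (N : ℤ) ∣ c) : Gamma0 N :=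
  ⟨⟨!![a, b; c, d], by rw [Matrix.det_fin_two_of]; exact h⟩, by
    rw [Gamma0_mem]
    simpa using (ZMod.intCast_zmod_eq_zero_iff_dvd c N).mpr hc⟩

theorem mkG_coe (N : ℕ) (a b c d : ℤ) (h : a * d - b * c = 1) (hc : (N : ℤ) ∣ c) :
    ((mkG N a b c d h hc : SL(2, ℤ)) : Matrix (Fin 2) (Fin 2) ℤ) = !![a, b; c, d] := rfl

theorem gamma0_ext {N : ℕ} {g g' : Gamma0 N}
    (h : ((g : SL(2, ℤ)) : Matrix (Fin 2) (Fin 2) ℤ) = ((g' : SL(2, ℤ)) : Matrix (Fin 2) (Fin 2) ℤ)) :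
    g = g' := Subtype.ext (Subtype.ext h)

theorem gamma0_det {N : ℕ} (g : Gamma0 N) :
    (g : SL(2, ℤ)) 0 0 * (g : SL(2, ℤ)) 1 1 - (g : SL(2, ℤ)) 0 1 * (g : SL(2, ℤ)) 1 0 = 1 := by
  have := (g : SL(2, ℤ)).2
  rwa [Matrix.det_fin_two] at this

theorem gamma0_dvd {N : ℕ} (g : Gamma0 N) : (N : ℤ) ∣ (g : SL(2, ℤ)) 1 0 :=
  (ZMod.intCast_zmod_eq_zero_iff_dvd _ N).mp (Gamma0_mem.mp g.2)

theorem mkG_self {N : ℕ} (g : Gamma0 N) :
    mkG N ((g : SL(2, ℤ)) 0 0) ((g : SL(2, ℤ)) 0 1) ((g : SL(2, ℤ)) 1 0) ((g : SL(2, ℤ)) 1 1)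
      (gamma0_det g) (gamma0_dvd g) = g := by
  refine gamma0_ext ?_
  rw [mkG_coe]
  exact (Matrix.eta_fin_two _).symm

open Classical in
/-- coordinates of an additive character. -/
noncomputable def toX {N : ℕ} (κ : Additive (Gamma0 N) →+ k) : ℤ → ℤ → ℤ → ℤ → k :=
  fun a b c d => if h : a * d - b * c = 1 ∧ (N : ℤ) ∣ c then
    κ (Additive.ofMul (mkG N a b c d h.1 h.2)) else 0

theorem toX_eq {N : ℕ} (κ : Additive (Gamma0 N) →+ k) {a b c d : ℤ} (h : a * d - b * c = 1)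
    (hc : (N : ℤ) ∣ c) : toX κ a b c d = κ (Additive.ofMul (mkG N a b c d h hc)) := by
  rw [toX, dif_pos ⟨h, hc⟩]

theorem toX_coe {N : ℕ} (κ : Additive (Gamma0 N) →+ k) (g : Gamma0 N) :
    toX κ ((g : SL(2, ℤ)) 0 0) ((g : SL(2, ℤ)) 0 1) ((g : SL(2, ℤ)) 1 0) ((g : SL(2, ℤ)) 1 1)
      = κ (Additive.ofMul g) := by
  rw [toX_eq κ (gamma0_det g) (gamma0_dvd g), mkG_self]

theorem isChar_toX {N : ℕ} (κ : Additive (Gamma0 N) →+ k)
    (hu : κ (Additive.ofMul (mkG N 1 1 0 1 (by ring) (dvd_zero _))) = 0)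
    (hl : κ (Additive.ofMul (mkG N 1 0 N 1 (by ring) dvd_rfl)) = 0)
    (hn : κ (Additive.ofMul (mkG N (-1) 0 0 (-1) (by ring) (dvd_zero _))) = 0) :
    IsChar (N : ℤ) (toX κ) where
  mul := by
    intro a b c d a' b' c' d' h hc h' hc'
    have hdet : (a * a' + b * c') * (c * b' + d * d') - (a * b' + b * d') * (c * a' + d * c') = 1 := by
      linear_combination (a' * d' - b' * c') * h + h'
    have hdvd : (N : ℤ) ∣ c * a' + d * c' := dvd_add (hc.mul_right _) (hc'.mul_left _)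
    rw [toX_eq κ hdet hdvd, toX_eq κ h hc, toX_eq κ h' hc', ← map_add, ← ofMul_mul]
    congr 2
    refine gamma0_ext ?_
    rw [Subgroup.coe_mul, Matrix.SpecialLinearGroup.coe_mul, mkG_coe, mkG_coe, mkG_coe,
      Matrix.mul_fin_two]
  u := by rw [toX_eq κ (by ring) (dvd_zero _)]; exact hu
  lN := by rw [toX_eq κ (by ring) dvd_rfl]; exact hl
  neg := by rw [toX_eq κ (by ring) (dvd_zero _)]; exact hn

theorem matT_eq (l : ℕ) (i : Option (Fin l)) : matT l i = !![dA l i, dB l i; 0, dD l i] := by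
  cases i <;> simp [matT, matD, matU, dA, dB, dD]

theorem isTransfer_toX {N l : ℕ} (κ κ' : Additive (Gamma0 N) →+ k)
    (h : ∀ (γ : Gamma0 N) (D : HData N (matT l) γ),
      κ' (Additive.ofMul γ) = ∑ i, κ (Additive.ofMul (D.δ i))) :
    IsTransfer (N : ℤ) l (toX κ) (toX κ') := by
  intro a b c d hdet hc s A B C D hAD hC e11 e12 e21 e22
  rw [toX_eq κ' hdet hc]
  have := h (mkG N a b c d hdet hc)
    { σ := s
      δ := fun i => mkG N (A i) (B i) (C i) (D i) (hAD i) (hC i)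
      rel := by
        intro i
        rw [mkG_coe, mkG_coe, matT_eq, matT_eq, Matrix.mul_fin_two, Matrix.mul_fin_two]
        rw [e11 i, e12 i, zero_mul, zero_mul, zero_add, zero_add, e21 i, e22 i, mul_zero,
          mul_zero, add_zero, add_zero] }
  rw [this]
  refine Finset.sum_congr rfl fun i _ => ?_
  exact (toX_eq κ (hAD i) (hC i)).symm

theorem isIhara_toX {N q : ℕ} (eps : k) (κ : Additive (Gamma0 N) →+ k)
    (hchar : IsChar (N : ℤ) (toX κ))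
    (h : ∀ g g' : Gamma0 N, (g' : SL(2, ℤ)) 0 0 = (g : SL(2, ℤ)) 0 0 →
      (g' : SL(2, ℤ)) 0 1 = q * (g : SL(2, ℤ)) 0 1 → (g : SL(2, ℤ)) 1 0 = q * (g' : SL(2, ℤ)) 1 0 →
      (g' : SL(2, ℤ)) 1 1 = (g : SL(2, ℤ)) 1 1 →
      κ (Additive.ofMul g) = eps * κ (Additive.ofMul g')) :
    IsIhara (N : ℤ) q eps (toX κ) := by
  intro c d hc hcd
  obtain ⟨a, b, hdet⟩ := exists_det hcd
  have hdet' : a * d - ((q : ℤ) * b) * c = 1 := by linear_combination hdet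
  rw [← hchar.eq_S hdet (hc.mul_left _), ← hchar.eq_S hdet' hc, toX_eq κ hdet (hc.mul_left _),
    toX_eq κ hdet' hc]
  exact h _ _ rfl rfl rfl rfl

/-- **Ihara's lemma** for a set `V` of additive characters of `Γ₀(N)`. -/
theorem ihara_gamma0 (N p q : ℕ) (hN : 0 < N) (hp : p.Prime) (hp2 : p ≠ 2) [CharP k p]
    (hq : 1 < q) (eps : k) (heps : eps * eps = 1) (V : Set (Additive (Gamma0 N) →+ k))
    (hu : ∀ κ ∈ V, κ (Additive.ofMul (mkG N 1 1 0 1 (by ring) (dvd_zero _))) = 0)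
    (hl : ∀ κ ∈ V, κ (Additive.ofMul (mkG N 1 0 N 1 (by ring) dvd_rfl)) = 0)
    (hn : ∀ κ ∈ V, κ (Additive.ofMul (mkG N (-1) 0 0 (-1) (by ring) (dvd_zero _))) = 0)
    (hih : ∀ κ ∈ V, ∀ g g' : Gamma0 N, (g' : SL(2, ℤ)) 0 0 = (g : SL(2, ℤ)) 0 0 →
      (g' : SL(2, ℤ)) 0 1 = q * (g : SL(2, ℤ)) 0 1 → (g : SL(2, ℤ)) 1 0 = q * (g' : SL(2, ℤ)) 1 0 →
      (g' : SL(2, ℤ)) 1 1 = (g : SL(2, ℤ)) 1 1 →
      κ (Additive.ofMul g) = eps * κ (Additive.ofMul g'))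
    (hT : ∀ l : ℕ, l.Prime → ¬ l ∣ N → ¬ l ∣ q → ∀ κ ∈ V, ∃ κ' ∈ V,
      ∀ (γ : Gamma0 N) (D : HData N (matT l) γ),
        κ' (Additive.ofMul γ) = ∑ i, κ (Additive.ofMul (D.δ i)))
    {κ : Additive (Gamma0 N) →+ k} (hκ : κ ∈ V) (g : Gamma0 N)
    (hg : (g : SL(2, ℤ)) 1 1 ≡ 1 [ZMOD N]) : κ (Additive.ofMul g) = 0 := by
  have hchar : ∀ x ∈ toX '' V, IsChar (N : ℤ) x := by
    rintro _ ⟨κ, hκ, rfl⟩
    exact isChar_toX κ (hu κ hκ) (hl κ hκ) (hn κ hκ)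
  rw [← toX_coe κ g]
  refine ihara N p q hN hp hp2 hq eps heps (toX '' V) hchar ?_ ?_ ⟨κ, hκ, rfl⟩ (gamma0_det g)
    (gamma0_dvd g) hg
  · rintro _ ⟨κ, hκ, rfl⟩
    exact isIhara_toX eps κ (hchar _ ⟨κ, hκ, rfl⟩) (hih κ hκ)
  · rintro l hl' hlN hlq _ ⟨κ, hκ, rfl⟩
    obtain ⟨κ', hκ', h⟩ := hT l hl' hlN hlq κ hκ
    exact ⟨toX κ', ⟨κ', hκ', rfl⟩, isTransfer_toX κ κ' h⟩

end Fermat.Agent.S41.IH
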