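import Fermat.Agent.S41.IH.Rec

/-!
# S41 / IH / HK : the formula (HK) from the transfer formula of `T_l`

`δ_∞ = diag(l,1)`, `δ_j = [[1,j],[0,l]]`, index set `Option (Fin l)`.
-/

set_option autoImplicit false

namespace Fermat.Agent.S41.IH

variable {k : Type*} [Field k]

/-- upper left entry of `δ_i`. -/
def dA (l : ℕ) : Option (Fin l) → ℤ
  | none => l
  | some _ => 1

/-- upper right entry of `δ_i`. -/
def dB (l : ℕ) : Option (Fin l) → ℤ
  | none => 0
  | some j => ((j : ℕ) : ℤ)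

/-- lower right entry of `δ_i`. -/
def dD (l : ℕ) : Option (Fin l) → ℤ
  | none => 1
  | some _ => l

/-- `y = T_l x` : transfer formula `y(g) = ∑ x(g_i)` whenever `δ_i g = g_i δ_{s i}`,
`g_i ∈ Γ₀(N)`. -/
def IsTransfer (N : ℤ) (l : ℕ) (x y : ℤ → ℤ → ℤ → ℤ → k) : Prop :=
  ∀ (a b c d : ℤ), a * d - b * c = 1 → N ∣ c →
    ∀ (s : Equiv.Perm (Option (Fin l))) (A B C D : Option (Fin l) → ℤ),
      (∀ i, A i * D i - B i * C i = 1) → (∀ i, N ∣ C i) →
      (∀ i, dA l i * a + dB l i * c = A i * dA l (s i)) →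
      (∀ i, dA l i * b + dB l i * d = A i * dB l (s i) + B i * dD l (s i)) →
      (∀ i, dD l i * c = C i * dA l (s i)) →
      (∀ i, dD l i * d = C i * dB l (s i) + D i * dD l (s i)) →
      y a b c d = ∑ i, x (A i) (B i) (C i) (D i)

theorem exists_fin_dvd (l : ℕ) (hl : 0 < l) (u v : ℤ) (h : IsCoprime u (l : ℤ)) :
    ∃ j : Fin l, (l : ℤ) ∣ v - u * ((j : ℕ) : ℤ) := by
  obtain ⟨w, w', hw⟩ := h
  have hl' : (0 : ℤ) < l := by exact_mod_cast hl
  have h0 : 0 ≤ (w * v) % (l : ℤ) := Int.emod_nonneg _ hl'.ne'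
  have h1 : (w * v) % (l : ℤ) < l := Int.emod_lt_of_pos _ hl'
  refine ⟨⟨((w * v) % (l : ℤ)).toNat, by omega⟩, ?_⟩
  have e : ((((w * v) % (l : ℤ)).toNat : ℕ) : ℤ) = (w * v) % (l : ℤ) := Int.toNat_of_nonneg h0
  change (l : ℤ) ∣ v - u * ((((w * v) % (l : ℤ)).toNat : ℕ) : ℤ)
  rw [e]
  have h2 := Int.emod_add_mul_ediv (w * v) (l : ℤ)
  refine ⟨v * w' + u * ((w * v) / (l : ℤ)), ?_⟩
  linear_combination (-v) * hw - u * h2

/-- the index `i` is determined by the coset `SL₂(ℤ) δ_i`. -/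
theorem idx_unique {l : ℕ} (hl : l.Prime) {i1 i2 : Option (Fin l)}
    {A1 B1 C1 D1 A2 B2 C2 D2 : ℤ} (h1 : A1 * D1 - B1 * C1 = 1) (h2 : A2 * D2 - B2 * C2 = 1)
    (e11 : A1 * dA l i1 = A2 * dA l i2)
    (e12 : A1 * dB l i1 + B1 * dD l i1 = A2 * dB l i2 + B2 * dD l i2)
    (e21 : C1 * dA l i1 = C2 * dA l i2)
    (_e22 : C1 * dB l i1 + D1 * dD l i1 = C2 * dB l i2 + D2 * dD l i2) : i1 = i2 := by
  have hp : Prime (l : ℤ) := Nat.prime_iff_prime_int.mp hl
  have hnot : ¬ (l : ℤ) ∣ 1 := fun h => hp.not_isUnit (isUnit_of_dvd_one h)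
  match i1, i2 with
  | none, none => rfl
  | none, some j =>
    exfalso
    simp only [dA, mul_one] at e11 e21
    refine hnot ⟨A1 * D2 - B2 * C1, ?_⟩
    rw [← h2, ← e11, ← e21]; ring
  | some j, none =>
    exfalso
    simp only [dA, mul_one] at e11 e21
    refine hnot ⟨A2 * D1 - B1 * C2, ?_⟩
    rw [← h1, e11, e21]; ring
  | some j1, some j2 =>
    simp only [dA, dB, dD, mul_one] at e11 e21 e12 _e22
    subst e11 e21
    have d1 : (l : ℤ) ∣ A1 * (((j1 : ℕ) : ℤ) - ((j2 : ℕ) : ℤ)) :=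
      ⟨B2 - B1, by linear_combination e12⟩
    have d2 : (l : ℤ) ∣ C1 * (((j1 : ℕ) : ℤ) - ((j2 : ℕ) : ℤ)) :=
      ⟨D2 - D1, by linear_combination _e22⟩
    have d3 : (l : ℤ) ∣ ((j1 : ℕ) : ℤ) - ((j2 : ℕ) : ℤ) := by
      have : ((j1 : ℕ) : ℤ) - ((j2 : ℕ) : ℤ)
          = D1 * (A1 * (((j1 : ℕ) : ℤ) - ((j2 : ℕ) : ℤ)))
            - B1 * (C1 * (((j1 : ℕ) : ℤ) - ((j2 : ℕ) : ℤ))) := by
        linear_combination (-(((j1 : ℕ) : ℤ) - ((j2 : ℕ) : ℤ))) * h1
      rw [this]
      exact dvd_sub (d1.mul_left _) (d2.mul_left _)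
    have b1 := j1.isLt
    have b2 := j2.isLt
    obtain ⟨m, hm⟩ := d3
    have hm0 : m = 0 := by
      by_contra hne
      rcases lt_or_gt_of_ne hne with h | h
      · have : (l : ℤ) * m ≤ (l : ℤ) * (-1) :=
          mul_le_mul_of_nonneg_left (by omega) (by positivity)
        omega
      · have : (l : ℤ) * 1 ≤ (l : ℤ) * m :=
          mul_le_mul_of_nonneg_left (by omega) (by positivity)
        omega
    rw [hm0, mul_zero] at hm
    congr 1
    exact Fin.ext (by omega)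

/-- bottom left entries of the `g_i`, indexed by the TARGET index. -/
def C0 (l : ℕ) (c : ℤ) : Option (Fin l) → ℤ
  | none => c
  | some j => if (j : ℕ) = 0 then c else (l : ℤ) * c

/-- bottom right entries of the `g_i`, indexed by the TARGET index. -/
def D0 (l : ℕ) (c : ℤ) (n : ℕ) : Option (Fin l) → ℤ
  | none => (l : ℤ) ^ (n + 2)
  | some j => if (j : ℕ) = 0 then (l : ℤ) ^ n else (l : ℤ) ^ (n + 1) - ((j : ℕ) : ℤ) * c

theorem exists_source {l : ℕ} (hl : l.Prime) {a t c : ℤ} {n : ℕ}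
    (hdet : a * (l : ℤ) ^ (n + 1) - t * c = 1) (i' : Option (Fin l)) :
    ∃ (i : Option (Fin l)) (A B : ℤ), A * D0 l c n i' - B * C0 l c i' = 1 ∧
      dA l i * a + dB l i * c = A * dA l i' ∧
      dA l i * t + dB l i * (l : ℤ) ^ (n + 1) = A * dB l i' + B * dD l i' ∧
      dD l i * c = C0 l c i' * dA l i' ∧
      dD l i * (l : ℤ) ^ (n + 1) = C0 l c i' * dB l i' + D0 l c n i' * dD l i' := by
  have hcl : IsCoprime c (l : ℤ) := ⟨-t, a * (l : ℤ) ^ n, by linear_combination hdet⟩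
  match i' with
  | none =>
    obtain ⟨j, m, hm⟩ := exists_fin_dvd l hl.pos (-c) a hcl.neg_left
    refine ⟨some j, m, t + ((j : ℕ) : ℤ) * (l : ℤ) ^ (n + 1), ?_, ?_, ?_, ?_, ?_⟩
    · simp only [C0, D0]
      linear_combination hdet - (l : ℤ) ^ (n + 1) * hm
    · simp only [dA, dB]
      linear_combination hm
    · simp only [dA, dB, dD]; ring
    · simp only [dA, dD, C0]; ring
    · simp only [dB, dD, C0, D0]; ring
  | some j' =>
    by_cases h0 : (j' : ℕ) = 0
    · refine ⟨none, (l : ℤ) * a, t, ?_, ?_, ?_, ?_, ?_⟩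
      · simp only [C0, D0, h0, if_true]
        linear_combination hdet
      · simp only [dA, dB]; ring
      · simp only [dA, dB, dD, h0]; push_cast; ring
      · simp only [dA, dD, C0, h0, if_true]; ring
      · simp only [dB, dD, C0, D0, h0, if_true]; push_cast; ring
    · have hj : IsCoprime ((j' : ℕ) : ℤ) (l : ℤ) := by
        refine ((Prime.coprime_iff_not_dvd (Nat.prime_iff_prime_int.mp hl)).mpr ?_).symm
        intro h
        have := Nat.le_of_dvd (Nat.pos_of_ne_zero h0) (Int.natCast_dvd_natCast.mp h)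
        have := j'.isLt
        omega
      obtain ⟨j, m, hm⟩ := exists_fin_dvd l hl.pos (c * ((j' : ℕ) : ℤ)) (t - a * ((j' : ℕ) : ℤ))
        (hcl.mul_left hj)
      refine ⟨some j, a + ((j : ℕ) : ℤ) * c, m + ((j : ℕ) : ℤ) * (l : ℤ) ^ n, ?_, ?_, ?_, ?_, ?_⟩
      · simp only [C0, D0, h0, if_false]
        linear_combination hdet + c * hm
      · simp only [dA, dB]; ring
      · simp only [dA, dB, dD]
        linear_combination hm
      · simp only [dA, dD, C0, h0, if_false]; ring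
      · simp only [dB, dD, C0, D0, h0, if_false]; ring

/-- (HK) from the transfer formula. -/
theorem hk_of_transfer {N : ℤ} {l : ℕ} (hl : l.Prime) {x y : ℤ → ℤ → ℤ → ℤ → k}
    (hx : IsChar N x) (hy : IsChar N y) (h : IsTransfer N l x y) (c : ℤ) (n : ℕ) (hN : N ∣ c)
    (hc : ¬ (l : ℤ) ∣ c) :
    S y c ((l : ℤ) ^ (n + 1)) = S x c ((l : ℤ) ^ n) + S x c ((l : ℤ) ^ (n + 2))
      + ∑ j ∈ Finset.Ico 1 l, S x ((l : ℤ) * c) ((l : ℤ) ^ (n + 1) - (j : ℤ) * c) := by
  have hcop : IsCoprime c ((l : ℤ) ^ (n + 1)) :=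
    ((Prime.coprime_iff_not_dvd (Nat.prime_iff_prime_int.mp hl)).mpr hc).symm.pow_right
  obtain ⟨a, t, hdet⟩ := exists_det hcop
  choose r A B hAB e11 e12 e21 e22 using exists_source hl hdet
  have hinj : Function.Injective r := by
    intro i1 i2 hi
    refine idx_unique hl (hAB i1) (hAB i2) ?_ ?_ ?_ ?_
    · rw [← e11 i1, ← e11 i2, hi]
    · rw [← e12 i1, ← e12 i2, hi]
    · rw [← e21 i1, ← e21 i2, hi]
    · rw [← e22 i1, ← e22 i2, hi]
  let e : Option (Fin l) ≃ Option (Fin l) :=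
    Equiv.ofBijective r (Finite.injective_iff_bijective.mp hinj)
  have he : ∀ i, r (e.symm i) = i := fun i => e.apply_symm_apply i
  have hNC : ∀ i, N ∣ C0 l c i := by
    intro i
    match i with
    | none => exact hN
    | some j =>
      simp only [C0]
      split_ifs
      · exact hN
      · exact hN.mul_left _
  have key := h a t c ((l : ℤ) ^ (n + 1)) hdet hN e.symm (fun i => A (e.symm i))
    (fun i => B (e.symm i)) (fun i => C0 l c (e.symm i)) (fun i => D0 l c n (e.symm i))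
    (fun i => hAB _) (fun i => hNC _)
    (fun i => by have := e11 (e.symm i); rwa [he] at this)
    (fun i => by have := e12 (e.symm i); rwa [he] at this)
    (fun i => by have := e21 (e.symm i); rwa [he] at this)
    (fun i => by have := e22 (e.symm i); rwa [he] at this)
  rw [← hy.eq_S hdet hN, key,
    Equiv.sum_comp e.symm (fun i => x (A i) (B i) (C0 l c i) (D0 l c n i))]
  have h1 : ∀ i, x (A i) (B i) (C0 l c i) (D0 l c n i) = S x (C0 l c i) (D0 l c n i) :=
    fun i => hx.eq_S (hAB i) (hNC i)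
  simp only [h1, Fintype.sum_option]
  have h2 : ∑ j : Fin l, S x (C0 l c (some j)) (D0 l c n (some j))
      = ∑ j ∈ Finset.range l, (if j = 0 then S x c ((l : ℤ) ^ n)
          else S x ((l : ℤ) * c) ((l : ℤ) ^ (n + 1) - (j : ℤ) * c)) := by
    rw [← Fin.sum_univ_eq_sum_range]
    refine Finset.sum_congr rfl fun j _ => ?_
    simp only [C0, D0]
    split_ifs <;> rfl
  rw [h2, Finset.range_eq_Ico, Finset.sum_eq_sum_Ico_succ_bot hl.pos]
  have h3 : ∑ j ∈ Finset.Ico (0 + 1) l, (if j = 0 then S x c ((l : ℤ) ^ n)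
          else S x ((l : ℤ) * c) ((l : ℤ) ^ (n + 1) - (j : ℤ) * c))
      = ∑ j ∈ Finset.Ico 1 l, S x ((l : ℤ) * c) ((l : ℤ) ^ (n + 1) - (j : ℤ) * c) := by
    refine Finset.sum_congr rfl fun j hj => ?_
    rw [Finset.mem_Ico] at hj
    rw [if_neg (by omega)]
  rw [h3]
  simp only [C0, D0, if_true]
  ring

end Fermat.Agent.S41.IH
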