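import Mathlib

/-!
# S41 / IH / LTE : the collapse lemma (step 2 of `S41-IHARA (lead)`)

For an odd prime `l` and `q > 1` prime to `l`, the subgroup generated by `q ^ 2` in
`(ℤ / l ^ (n+1))ˣ` contains `1 + l ^ n ℤ` for all large `n`.
-/

set_option autoImplicit false

namespace Fermat.Agent.S41.IH

theorem one_add_pow_modEq (a : ℤ) (j : ℕ) : (1 + a) ^ j ≡ 1 + j * a [ZMOD a ^ 2] := by
  induction j with
  | zero => simp
  | succ j ih =>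
    have h1 : (1 + a) ^ (j + 1) ≡ (1 + j * a) * (1 + a) [ZMOD a ^ 2] := by
      rw [pow_succ (1 + a) j]
      exact ih.mul_right _
    refine h1.trans ?_
    refine Int.modEq_iff_dvd.mpr ⟨-(j : ℤ), ?_⟩
    push_cast
    ring

theorem collapse (l q : ℕ) (hl : l.Prime) (hl2 : l ≠ 2) (hq : ¬ l ∣ q) (hq1 : 1 < q) :
    ∃ n0 : ℕ, ∀ n, n0 ≤ n → ∀ z : ℤ, z ≡ 1 [ZMOD (l : ℤ) ^ n] →
      ∃ i : ℕ, (q : ℤ) ^ (2 * i) ≡ z [ZMOD (l : ℤ) ^ (n + 1)] := by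
  have hp : Prime (l : ℤ) := Nat.prime_iff_prime_int.mp hl
  have hodd : Odd l := hl.odd_of_ne_two hl2
  have hql : ¬ (l : ℤ) ∣ (q : ℤ) := fun h => hq (Int.natCast_dvd_natCast.mp h)
  have hcop : IsCoprime (q : ℤ) (l : ℤ) := ((Prime.coprime_iff_not_dvd hp).mpr hql).symm
  obtain ⟨w, hw⟩ : ∃ w : ℤ, w = (q : ℤ) ^ (2 * (l - 1)) := ⟨_, rfl⟩
  have hw1 : (l : ℤ) ∣ w - 1 := by
    have h1 := Int.ModEq.pow_card_sub_one_eq_one hl hcop
    have h2 := h1.pow 2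
    rw [one_pow, ← pow_mul, mul_comm] at h2
    rw [hw]
    exact (Int.modEq_iff_dvd.mp h2.symm)
  have hwl : ¬ (l : ℤ) ∣ w := by
    rw [hw]
    exact fun h => hql (hp.dvd_of_dvd_pow h)
  have hwne : w - 1 ≠ 0 := by
    have h2 : (1 : ℤ) < w := by
      rw [hw]
      have : 2 * (l - 1) ≠ 0 := by have := hl.two_le; omega
      exact one_lt_pow₀ (by exact_mod_cast hq1) this
    omega
  have hfin : FiniteMultiplicity (l : ℤ) (w - 1) := by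
    rw [Int.finiteMultiplicity_iff]
    refine ⟨?_, hwne⟩
    rw [Int.natAbs_natCast]
    exact hl.one_lt.ne'
  obtain ⟨v, hv⟩ : ∃ v : ℕ, emultiplicity (l : ℤ) (w - 1) = v :=
    ⟨_, hfin.emultiplicity_eq_multiplicity⟩
  have hv1 : 1 ≤ v := by
    by_contra h
    have h0 : v = 0 := by omega
    rw [h0] at hv
    have := (emultiplicity_eq_coe.mp hv).2
    simp only [zero_add, pow_one] at this
    exact this hw1
  refine ⟨v, fun n hn z hz => ?_⟩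
  -- exact multiplicity `n`
  have hmul : emultiplicity (l : ℤ) (w ^ (l ^ (n - v)) - 1) = (n : ℕ) := by
    have := Int.emultiplicity_pow_sub_pow hl hodd (x := w) (y := 1) hw1 hwl (l ^ (n - v))
    rw [one_pow, hv, hl.emultiplicity_pow_self] at this
    rw [this, ← Nat.cast_add]
    congr 1
    omega
  obtain ⟨⟨y, hy⟩, hy2⟩ := emultiplicity_eq_coe.mp hmul
  have hyl : ¬ (l : ℤ) ∣ y := by
    rintro ⟨y', rfl⟩
    exact hy2 ⟨y', by rw [hy]; ring⟩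
  obtain ⟨y', y'', hyy⟩ : IsCoprime y (l : ℤ) := ((Prime.coprime_iff_not_dvd hp).mpr hyl).symm
  obtain ⟨m, hm⟩ := hz.symm.dvd
  have hl' : (0 : ℤ) < l := by exact_mod_cast hl.pos
  have h0 : 0 ≤ (y' * m) % (l : ℤ) := Int.emod_nonneg _ hl'.ne'
  obtain ⟨j, hj⟩ : ∃ j : ℕ, (j : ℤ) = (y' * m) % (l : ℤ) :=
    ⟨((y' * m) % (l : ℤ)).toNat, Int.toNat_of_nonneg h0⟩
  have hdiv := Int.emod_add_mul_ediv (y' * m) (l : ℤ)
  refine ⟨(l - 1) * l ^ (n - v) * j, ?_⟩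
  have e1 : (q : ℤ) ^ (2 * ((l - 1) * l ^ (n - v) * j)) = (1 + (l : ℤ) ^ n * y) ^ j := by
    rw [← hy, add_sub_cancel, hw, ← pow_mul, ← pow_mul]
    congr 1
    ring
  rw [e1]
  have h1 := one_add_pow_modEq ((l : ℤ) ^ n * y) j
  have h2 : (1 + (l : ℤ) ^ n * y) ^ j ≡ 1 + j * ((l : ℤ) ^ n * y) [ZMOD (l : ℤ) ^ (n + 1)] := by
    refine h1.of_dvd ?_
    obtain ⟨n', rfl⟩ : ∃ n', n = n' + 1 := ⟨n - 1, by omega⟩
    exact ⟨(l : ℤ) ^ n' * y ^ 2, by ring⟩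
  refine h2.trans ?_
  refine Int.modEq_iff_dvd.mpr ⟨m * y'' + y * ((y' * m) / (l : ℤ)), ?_⟩
  rw [hj]
  linear_combination hm - (l : ℤ) ^ n * m * hyy - (l : ℤ) ^ n * y * hdiv

end Fermat.Agent.S41.IH
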