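import Fermat.Agent.S41.IH.HK
import Fermat.Agent.S41.IH.LTE
import Fermat.Agent.S41.IH.Arith

/-!
# S41 / IH / Main : Ihara's lemma (coordinates), briefing `S41-IHARA (lead)`
-/

set_option autoImplicit false

namespace Fermat.Agent.S41.IH

variable {k : Type*} [Field k]

/-- **Ihara's lemma**, (HK) form. -/
theorem ihara_of_hk (N p q : ℕ) (hN : 0 < N) (hp : p.Prime) (hp2 : p ≠ 2) [CharP k p]
    (hq : 1 < q) (eps : k) (heps : eps * eps = 1) (V : Set (ℤ → ℤ → ℤ → ℤ → k))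
    (hchar : ∀ x ∈ V, IsChar (N : ℤ) x) (hih : ∀ x ∈ V, IsIhara (N : ℤ) q eps x)
    (hT : ∀ l : ℕ, l.Prime → ¬ l ∣ N → ¬ l ∣ q →
      ∃ T : (ℤ → ℤ → ℤ → ℤ → k) → (ℤ → ℤ → ℤ → ℤ → k), (∀ x ∈ V, T x ∈ V) ∧
        ∀ x ∈ V, ∀ (c : ℤ) (n : ℕ), (N : ℤ) ∣ c → ¬ (l : ℤ) ∣ c →
          S (T x) c ((l : ℤ) ^ (n + 1)) = S x c ((l : ℤ) ^ n) + S x c ((l : ℤ) ^ (n + 2))
            + ∑ j ∈ Finset.Ico 1 l, S x ((l : ℤ) * c) ((l : ℤ) ^ (n + 1) - (j : ℤ) * c))
    {x : ℤ → ℤ → ℤ → ℤ → k} (hx : x ∈ V) {a b c d : ℤ} (hdet : a * d - b * c = 1)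
    (hc : (N : ℤ) ∣ c) (hd : d ≡ 1 [ZMOD N]) : x a b c d = 0 := by
  have hX := hchar x hx
  have hpp : Prime (p : ℤ) := Nat.prime_iff_prime_int.mp hp
  rw [hX.eq_S hdet hc]
  have hcd : IsCoprime c d := isCoprime_of_det hdet
  by_cases hc0 : c = 0
  · subst hc0
    have h1 : a * d = 1 := by linear_combination hdet
    rcases Int.isUnit_iff.mp (IsUnit.of_mul_eq_one a (by rw [mul_comm]; exact h1)) with h | h
    · rw [h]; exact hX.S_one (dvd_zero _)
    · rw [h]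
      have := hX.S_neg (c := 0) (d := 1) isCoprime_one_right (dvd_zero _)
      rw [neg_zero] at this
      rw [this]; exact hX.S_one (dvd_zero _)
  -- adjust `c`
  obtain ⟨c1, hc1S, hc1N, hc1d, hc10, hc1p⟩ : ∃ c1 : ℤ, S x c1 d = S x c d ∧ (N : ℤ) ∣ c1 ∧
      IsCoprime c1 d ∧ c1 ≠ 0 ∧ (¬ (p : ℤ) ∣ c1 ∨ d ≡ 1 [ZMOD p]) := by
    by_cases h1 : (p : ℤ) ∣ c
    · by_cases h2 : (p : ℤ) ∣ (N : ℤ)
      · exact ⟨c, rfl, hc, hcd, hc0, Or.inr (hd.of_dvd h2)⟩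
      · have hpd : ¬ (p : ℤ) ∣ d := by
          intro h
          exact hpp.not_isUnit (hcd.isUnit_of_dvd' h1 h)
        have h3 : ¬ (p : ℤ) ∣ c + (N : ℤ) * 1 * d := by
          intro h
          have : (p : ℤ) ∣ (N : ℤ) * 1 * d := (dvd_add_right h1).mp h
          rw [mul_one] at this
          rcases hpp.dvd_or_dvd this with h | h
          · exact h2 h
          · exact hpd h
        refine ⟨c + (N : ℤ) * 1 * d, hX.S_add_mul_left hcd hc 1,
          dvd_add hc ⟨d, by ring⟩, ?_, fun h => h3 (h ▸ dvd_zero _), Or.inl h3⟩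
        have : c + (N : ℤ) * 1 * d = c + d * N := by ring
        rw [this]
        exact hcd.add_mul_left_left _
    · exact ⟨c, rfl, hc, hcd, hc0, Or.inl h1⟩
  rw [← hc1S]
  obtain ⟨l, hlB, hl, hlc, hlp⟩ := exists_prime_l hp hc10 hc1d hc1p (2 + q + N + c1.natAbs)
  have hpl : Prime (l : ℤ) := Nat.prime_iff_prime_int.mp hl
  have hl2 : l ≠ 2 := by omega
  have hlq : ¬ l ∣ q := fun h => by
    have := Nat.le_of_dvd (by omega) h
    omega
  have hlN : ¬ l ∣ N := fun h => by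
    have := Nat.le_of_dvd hN h
    omega
  have hlc1 : ¬ (l : ℤ) ∣ c1 := by
    intro h
    have h1 : l ∣ c1.natAbs := Int.natCast_dvd.mp h
    have := Nat.le_of_dvd (Int.natAbs_pos.mpr hc10) h1
    omega
  obtain ⟨T, hTV, hTk⟩ := hT l hl hlN hlq
  have H : Setup (N : ℤ) q l eps V T :=
    { char := hchar
      ihara := hih
      eps2 := heps
      maps := hTV
      hk := hTk
      lprime := hl
      lN := (hlc.of_dvd hc1N).trans hd
      lq := hlq
      lk := by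
        have := (CharP.intCast_eq_intCast k p).mpr hlp
        simpa using this
      two := by
        intro h
        have h2 : ((2 : ℕ) : k) = 0 := by exact_mod_cast h
        have := (CharP.cast_eq_zero_iff k p 2).mp h2
        exact hp2 ((Nat.prime_dvd_prime_iff_eq hp Nat.prime_two).mp this)
      col := collapse l q hl hl2 hlq hq }
  rw [← hX.S_congr_right hc1d hc1N hlc]
  have hE0 : 0 < Nat.totient c1.natAbs := Nat.totient_pos.mpr (Int.natAbs_pos.mpr hc10)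
  have hEl : Nat.totient c1.natAbs < l := by
    have := Nat.totient_le c1.natAbs
    omega
  obtain ⟨r, hrB, hr, hrc, hg⟩ := exists_prime_r hl hl2 H.coprime_l_N hlc1 hE0 hEl (N + l)
  have hlr : IsCoprime (l : ℤ) (r : ℤ) := by
    refine Nat.isCoprime_iff_coprime.mpr ((Nat.coprime_primes hl hr).mpr ?_)
    omega
  have hNr : IsCoprime (N : ℤ) (r : ℤ) := by
    refine Nat.isCoprime_iff_coprime.mpr (Nat.Coprime.symm ((Nat.Prime.coprime_iff_not_dvd hr).mpr ?_))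
    intro h
    have := Nat.le_of_dvd hN h
    omega
  have hE' : (l : ℤ) ^ (r - 1) ≡ 1 [ZMOD (N : ℤ) * r] := by
    have h1 : (l : ℤ) ^ (r - 1) ≡ 1 [ZMOD r] := Int.ModEq.pow_card_sub_one_eq_one hr hlr
    have h2 : (l : ℤ) ^ (r - 1) ≡ 1 [ZMOD N] := by simpa using H.lN.pow (r - 1)
    exact Int.modEq_iff_dvd.mpr
      (hNr.mul_dvd (Int.modEq_iff_dvd.mp h2) (Int.modEq_iff_dvd.mp h1))
  exact H.S_eq_zero_of_periods hx hc1N (Dvd.intro _ rfl) hlc1 hrc
    (pow_totient_int (H.coprime_of_not_dvd hlc1)) hE' hg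

/-- **Ihara's lemma**, transfer form. -/
theorem ihara (N p q : ℕ) (hN : 0 < N) (hp : p.Prime) (hp2 : p ≠ 2) [CharP k p]
    (hq : 1 < q) (eps : k) (heps : eps * eps = 1) (V : Set (ℤ → ℤ → ℤ → ℤ → k))
    (hchar : ∀ x ∈ V, IsChar (N : ℤ) x) (hih : ∀ x ∈ V, IsIhara (N : ℤ) q eps x)
    (hT : ∀ l : ℕ, l.Prime → ¬ l ∣ N → ¬ l ∣ q → ∀ x ∈ V, ∃ y ∈ V, IsTransfer (N : ℤ) l x y)
    {x : ℤ → ℤ → ℤ → ℤ → k} (hx : x ∈ V) {a b c d : ℤ} (hdet : a * d - b * c = 1)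
    (hc : (N : ℤ) ∣ c) (hd : d ≡ 1 [ZMOD N]) : x a b c d = 0 := by
  classical
  refine ihara_of_hk N p q hN hp hp2 hq eps heps V hchar hih ?_ hx hdet hc hd
  intro l hl hlN hlq
  have h := hT l hl hlN hlq
  refine ⟨fun x => if hx : x ∈ V then (h x hx).choose else x, ?_, ?_⟩
  · intro x hx
    simp only [dif_pos hx]
    exact (h x hx).choose_spec.1
  · intro x hx c n hc hlc
    simp only [dif_pos hx]
    exact hk_of_transfer hl (hchar x hx) (hchar _ (h x hx).choose_spec.1)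
      (h x hx).choose_spec.2 c n hc hlc

end Fermat.Agent.S41.IH
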