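import Fermat.Agent.S41.IH.Bridge
import Fermat.Agent.S41.Defs

/-!
# S41 / IH / PHForm : Ihara's lemma in the `PH` / `IsTr` language of `S41/Defs.lean`
-/

set_option autoImplicit false

open scoped MatrixGroups
open CongruenceSubgroup

namespace Fermat.Agent.S41.IH

open Fermat.Agent.S16.Lower (HData matT)

/-- **Ihara's lemma**: a set `V ⊆ PH p Γ₀(N)` stable under the `T_l` and contained in the
`ε`-part of the kernel of the degeneracy map consists of characters trivial on `d ≡ 1 mod N`. -/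
theorem ihara_PH (N p q : ℕ) (hN : 0 < N) [Fact p.Prime] (hp2 : p ≠ 2)
    (hq : 1 < q) (eps : ZMod p) (heps : eps * eps = 1) (V : Set (Additive (Gamma0 N) →+ ZMod p))
    (hV : ∀ κ ∈ V, κ ∈ PH p (Gamma0 N))
    (hih : ∀ κ ∈ V, ∀ g g' : Gamma0 N, (g' : SL(2, ℤ)) 0 0 = (g : SL(2, ℤ)) 0 0 →
      (g' : SL(2, ℤ)) 0 1 = q * (g : SL(2, ℤ)) 0 1 → (g : SL(2, ℤ)) 1 0 = q * (g' : SL(2, ℤ)) 1 0 →
      (g' : SL(2, ℤ)) 1 1 = (g : SL(2, ℤ)) 1 1 →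
      κ (Additive.ofMul g) = eps * κ (Additive.ofMul g'))
    (hT : ∀ l : ℕ, l.Prime → ¬ l ∣ N → ¬ l ∣ q → ∀ κ ∈ V, ∃ κ' ∈ V,
      IsTr (Gamma0 N) (Gamma0 N) (matT l) κ κ')
    {κ : Additive (Gamma0 N) →+ ZMod p} (hκ : κ ∈ V) (g : Gamma0 N)
    (hg : (g : SL(2, ℤ)) 1 1 ≡ 1 [ZMOD N]) : κ (Additive.ofMul g) = 0 := by
  refine ihara_gamma0 N p q hN Fact.out hp2 hq eps heps V ?_ ?_ ?_ hih ?_ hκ g hg
  · intro κ hκ
    refine hV κ hκ _ (Or.inl ?_)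
    rw [mkG_coe, Matrix.trace_fin_two_of]; norm_num
  · intro κ hκ
    refine hV κ hκ _ (Or.inl ?_)
    rw [mkG_coe, Matrix.trace_fin_two_of]; norm_num
  · intro κ hκ
    refine hV κ hκ _ (Or.inl ?_)
    rw [mkG_coe, Matrix.trace_fin_two_of]; norm_num
  · intro l hl hlN hlq κ hκ
    obtain ⟨κ', hκ', h⟩ := hT l hl hlN hlq κ hκ
    exact ⟨κ', hκ', fun γ D => h γ (HD.ofHData D)⟩

end Fermat.Agent.S41.IH
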