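import Fermat.Agent.S41.IH.Sym

/-!
# S41 / IH / Rec : the recursion `l X(n+1) = T_l X(n) - X(n-1)` and its consequences

Steps 1-6 of the briefing `S41-IHARA (lead)`, with bottom rows only.
-/

set_option autoImplicit false

namespace Fermat.Agent.S41.IH

variable {k : Type*} [Field k]

/-- the hypotheses on `V`, `T = T_l`. -/
structure Setup (N : ℤ) (q l : ℕ) (eps : k) (V : Set (ℤ → ℤ → ℤ → ℤ → k))
    (T : (ℤ → ℤ → ℤ → ℤ → k) → (ℤ → ℤ → ℤ → ℤ → k)) : Prop where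
  char : ∀ x ∈ V, IsChar N x
  ihara : ∀ x ∈ V, IsIhara N q eps x
  eps2 : eps * eps = 1
  maps : ∀ x ∈ V, T x ∈ V
  hk : ∀ x ∈ V, ∀ (c : ℤ) (n : ℕ), N ∣ c → ¬ (l : ℤ) ∣ c →
    S (T x) c ((l : ℤ) ^ (n + 1)) = S x c ((l : ℤ) ^ n) + S x c ((l : ℤ) ^ (n + 2))
      + ∑ j ∈ Finset.Ico 1 l, S x ((l : ℤ) * c) ((l : ℤ) ^ (n + 1) - (j : ℤ) * c)
  lprime : l.Prime
  lN : (l : ℤ) ≡ 1 [ZMOD N]
  lq : ¬ l ∣ q
  lk : (l : k) = 1
  two : (2 : k) ≠ 0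
  col : ∃ n0 : ℕ, ∀ n, n0 ≤ n → ∀ z : ℤ, z ≡ 1 [ZMOD (l : ℤ) ^ n] →
    ∃ i : ℕ, (q : ℤ) ^ (2 * i) ≡ z [ZMOD (l : ℤ) ^ (n + 1)]

/-- auxiliary `e_j` : `N ∣ e_j`, `a_j l - j e_j = 1`. -/
noncomputable def eJ (N : ℤ) (l j : ℕ) : ℤ := -N * Int.gcdB (l : ℤ) ((j : ℤ) * N)

/-- the constant `B_x`. -/
noncomputable def Bc (N : ℤ) (l : ℕ) (x : ℤ → ℤ → ℤ → ℤ → k) : k :=
  ∑ j ∈ Finset.Ico 1 l, S x (eJ N l j) (l : ℤ)

variable {N : ℤ} {q l : ℕ} {eps : k} {V : Set (ℤ → ℤ → ℤ → ℤ → k)}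
  {T : (ℤ → ℤ → ℤ → ℤ → k) → (ℤ → ℤ → ℤ → ℤ → k)}

namespace Setup

theorem prime_int (H : Setup N q l eps V T) : Prime (l : ℤ) := Nat.prime_iff_prime_int.mp H.lprime

theorem coprime_l_N (H : Setup N q l eps V T) : IsCoprime (l : ℤ) N := by
  obtain ⟨t, ht⟩ := H.lN.symm.dvd
  exact ⟨1, -t, by linear_combination ht⟩

theorem coprime_of_not_dvd (H : Setup N q l eps V T) {c : ℤ} (hc : ¬ (l : ℤ) ∣ c) :
    IsCoprime (l : ℤ) c :=
  (Prime.coprime_iff_not_dvd H.prime_int).mpr hc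

theorem not_dvd_cast (_H : Setup N q l eps V T) {j : ℕ} (hj : j ∈ Finset.Ico 1 l) :
    ¬ (l : ℤ) ∣ (j : ℤ) := by
  rw [Finset.mem_Ico] at hj
  intro h
  have := Nat.le_of_dvd (by omega) (Int.natCast_dvd_natCast.mp h)
  omega

theorem eJ_dvd (N : ℤ) (l j : ℕ) : N ∣ eJ N l j := ⟨-Int.gcdB (l : ℤ) ((j : ℤ) * N), by
  rw [eJ]; ring⟩

theorem eJ_det (H : Setup N q l eps V T) {j : ℕ} (hj : j ∈ Finset.Ico 1 l) :
    Int.gcdA (l : ℤ) ((j : ℤ) * N) * (l : ℤ) - (j : ℤ) * eJ N l j = 1 := by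
  have hc : IsCoprime (l : ℤ) ((j : ℤ) * N) :=
    (H.coprime_of_not_dvd (H.not_dvd_cast hj)).mul_right H.coprime_l_N
  have h1 := Int.gcd_eq_gcd_ab (l : ℤ) ((j : ℤ) * N)
  rw [Int.isCoprime_iff_gcd_eq_one.mp hc] at h1
  push_cast at h1
  rw [eJ]
  linear_combination -h1

/-- product rule with `ρ = [[a_j, j],[e_j, l]]`. -/
theorem S_shift (H : Setup N q l eps V T) {x : ℤ → ℤ → ℤ → ℤ → k} (hx : x ∈ V) {c : ℤ}
    (hN : N ∣ c) (hc : ¬ (l : ℤ) ∣ c) (n : ℕ) {j : ℕ} (hj : j ∈ Finset.Ico 1 l) :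
    S x (c + (l : ℤ) ^ (n + 1) * eJ N l j) ((l : ℤ) ^ (n + 2))
      = S x ((l : ℤ) * c) ((l : ℤ) ^ (n + 1) - (j : ℤ) * c) + S x (eJ N l j) (l : ℤ) := by
  have hdet := H.eJ_det hj
  have hlc := H.coprime_of_not_dvd hc
  have hlj := H.coprime_of_not_dvd (H.not_dvd_cast hj)
  have h1 : IsCoprime (l : ℤ) ((l : ℤ) ^ (n + 1) - (j : ℤ) * c) := by
    have : IsCoprime (l : ℤ) (-((j : ℤ) * c) + (l : ℤ) * (l : ℤ) ^ n) :=
      (IsCoprime.add_mul_left_right_iff).mpr (hlj.mul_right hlc).neg_right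
    convert this using 1
    ring
  have h2 : IsCoprime c ((l : ℤ) ^ (n + 1) - (j : ℤ) * c) := by
    have : IsCoprime c ((l : ℤ) ^ (n + 1) + c * (-(j : ℤ))) :=
      (IsCoprime.add_mul_left_right_iff).mpr hlc.symm.pow_right
    convert this using 1
    ring
  have := (H.char x hx).S_mul (c := (l : ℤ) * c) (d := (l : ℤ) ^ (n + 1) - (j : ℤ) * c)
    (a' := Int.gcdA (l : ℤ) ((j : ℤ) * N)) (b' := j) (c' := eJ N l j) (d' := l)
    (h1.mul_left h2) (hN.mul_left _) hdet (eJ_dvd N l j)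
  rw [← this]
  congr 1
  · linear_combination (-c) * hdet
  · ring

/-- collapse. -/
theorem S_collapse (H : Setup N q l eps V T) {x : ℤ → ℤ → ℤ → ℤ → k} (hx : x ∈ V) {c e : ℤ}
    (hN : N ∣ c) (hc : ¬ (l : ℤ) ∣ c) (he : N ∣ e) {n0 : ℕ}
    (hn0 : ∀ n, n0 ≤ n → ∀ z : ℤ, z ≡ 1 [ZMOD (l : ℤ) ^ n] →
      ∃ i : ℕ, (q : ℤ) ^ (2 * i) ≡ z [ZMOD (l : ℤ) ^ (n + 1)]) (n : ℕ) (hn : n0 ≤ n + 1) :
    S x (c + (l : ℤ) ^ (n + 1) * e) ((l : ℤ) ^ (n + 2)) = S x c ((l : ℤ) ^ (n + 2)) := by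
  obtain ⟨c1, rfl⟩ := hN
  obtain ⟨e1, rfl⟩ := he
  have hc1 : ¬ (l : ℤ) ∣ c1 := fun h => hc (h.mul_left _)
  have hcop : IsCoprime c1 ((l : ℤ) ^ (n + 2)) := (H.coprime_of_not_dvd hc1).symm.pow_right
  obtain ⟨w, w', hw⟩ := hcop
  obtain ⟨i, hi⟩ := hn0 (n + 1) hn (1 + (l : ℤ) ^ (n + 1) * (e1 * w)) (by
    refine (Int.modEq_iff_dvd.mpr ⟨-(e1 * w), by ring⟩))
  obtain ⟨t, ht⟩ := hi.symm.dvd
  have hq : IsCoprime (q : ℤ) ((l : ℤ) ^ (n + 2)) := by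
    refine (H.coprime_of_not_dvd ?_).symm.pow_right
    intro h
    exact H.lq (Int.natCast_dvd_natCast.mp h)
  have hcd : IsCoprime (N * c1) ((l : ℤ) ^ (n + 2)) := (H.coprime_of_not_dvd hc).symm.pow_right
  rw [← (H.ihara x hx).pow H.eps2 (Dvd.intro _ rfl) hq hcd i]
  refine (H.char x hx).S_congr_left (hq.pow_left.mul_left hcd) ((Dvd.intro _ rfl).mul_left _) ?_
  refine (Int.modEq_iff_dvd.mpr ⟨c1 * t - (l : ℤ) ^ (n + 1) * e1 * w', ?_⟩)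
  linear_combination (N * c1) * ht + (N * (l : ℤ) ^ (n + 1) * e1) * hw

/-- (Rec) for large `n`. -/
theorem rec_large (H : Setup N q l eps V T) {n0 : ℕ}
    (hn0 : ∀ n, n0 ≤ n → ∀ z : ℤ, z ≡ 1 [ZMOD (l : ℤ) ^ n] →
      ∃ i : ℕ, (q : ℤ) ^ (2 * i) ≡ z [ZMOD (l : ℤ) ^ (n + 1)])
    {x : ℤ → ℤ → ℤ → ℤ → k} (hx : x ∈ V) {c : ℤ}
    (hN : N ∣ c) (hc : ¬ (l : ℤ) ∣ c) (n : ℕ) (hn : n0 ≤ n + 1) :
    (l : k) * S x c ((l : ℤ) ^ (n + 2))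
      = S (T x) c ((l : ℤ) ^ (n + 1)) - S x c ((l : ℤ) ^ n) + Bc N l x := by
  have h1 : ∑ j ∈ Finset.Ico 1 l, S x ((l : ℤ) * c) ((l : ℤ) ^ (n + 1) - (j : ℤ) * c)
      = ∑ j ∈ Finset.Ico 1 l, (S x c ((l : ℤ) ^ (n + 2)) - S x (eJ N l j) (l : ℤ)) := by
    refine Finset.sum_congr rfl fun j hj => ?_
    rw [← H.S_collapse hx hN hc (eJ_dvd N l j) hn0 n hn, H.S_shift hx hN hc n hj]
    ring
  rw [H.hk x hx c n hN hc, h1, Finset.sum_sub_distrib, Finset.sum_const, Nat.card_Ico, Bc,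
    nsmul_eq_mul, Nat.cast_sub H.lprime.one_lt.le]
  push_cast
  ring

/-- periodicity of `n ↦ [c, l^n]`. -/
theorem S_period (H : Setup N q l eps V T) {x : ℤ → ℤ → ℤ → ℤ → k} (hx : x ∈ V) {c : ℤ}
    (hN : N ∣ c) (hc : ¬ (l : ℤ) ∣ c) {E : ℕ} (hE : (l : ℤ) ^ E ≡ 1 [ZMOD c]) (n : ℕ) :
    S x c ((l : ℤ) ^ (n + E)) = S x c ((l : ℤ) ^ n) := by
  refine (H.char x hx).S_congr_right (H.coprime_of_not_dvd hc).symm.pow_right hN ?_
  rw [pow_add]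
  simpa using (Int.ModEq.refl ((l : ℤ) ^ n)).mul hE

theorem exists_period (H : Setup N q l eps V T) {c : ℤ} (hc : ¬ (l : ℤ) ∣ c) :
    ∃ E : ℕ, 0 < E ∧ (l : ℤ) ^ E ≡ 1 [ZMOD c] := by
  have hc0 : c ≠ 0 := fun h => hc (h ▸ dvd_zero _)
  refine ⟨Nat.totient c.natAbs, Nat.totient_pos.mpr (Int.natAbs_pos.mpr hc0), ?_⟩
  have hcop : Nat.Coprime l c.natAbs := by
    have := Int.isCoprime_iff_gcd_eq_one.mp (H.coprime_of_not_dvd hc)
    rwa [Int.gcd, Int.natAbs_natCast] at this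
  have h1 := Nat.ModEq.pow_totient hcop
  have h2 := (Int.natCast_modEq_iff.mpr h1)
  rw [Nat.cast_pow, Nat.cast_one] at h2
  exact Int.modEq_iff_dvd.mpr (Int.natAbs_dvd.mp (Int.modEq_iff_dvd.mp h2))

/-- (Rec) for all `n`. -/
theorem rec_all (H : Setup N q l eps V T) {x : ℤ → ℤ → ℤ → ℤ → k} (hx : x ∈ V) {c : ℤ}
    (hN : N ∣ c) (hc : ¬ (l : ℤ) ∣ c) (n : ℕ) :
    (l : k) * S x c ((l : ℤ) ^ (n + 2))
      = S (T x) c ((l : ℤ) ^ (n + 1)) - S x c ((l : ℤ) ^ n) + Bc N l x := by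
  obtain ⟨n0, hn0⟩ := H.col
  obtain ⟨E, hE0, hE⟩ := H.exists_period hc
  have hE' : (l : ℤ) ^ (n0 * E) ≡ 1 [ZMOD c] := by
    rw [mul_comm, pow_mul]
    simpa using hE.pow n0
  have hle : n0 ≤ n0 * E := Nat.le_mul_of_pos_right _ hE0
  have := H.rec_large hn0 hx hN hc (n + n0 * E) (by omega)
  have e1 : n + n0 * E + 2 = (n + 2) + n0 * E := by ring
  have e2 : n + n0 * E + 1 = (n + 1) + n0 * E := by ring
  rw [e1, e2, H.S_period hx hN hc hE', H.S_period (H.maps x hx) hN hc hE',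
    H.S_period hx hN hc hE'] at this
  exact this

theorem not_dvd_N (H : Setup N q l eps V T) : ¬ (l : ℤ) ∣ N := by
  intro h
  have := H.coprime_l_N
  exact H.prime_int.not_isUnit (this.isUnit_of_dvd' dvd_rfl h)

theorem S_N (H : Setup N q l eps V T) {x : ℤ → ℤ → ℤ → ℤ → k} (hx : x ∈ V) (n : ℕ) :
    S x N ((l : ℤ) ^ n) = 0 := by
  rw [← (H.char x hx).S_one (dvd_refl N)]
  refine (H.char x hx).S_congr_right isCoprime_one_right dvd_rfl ?_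
  simpa using H.lN.pow n

/-- step 4 : `B_x = 0`. -/
theorem Bc_eq_zero (H : Setup N q l eps V T) {x : ℤ → ℤ → ℤ → ℤ → k} (hx : x ∈ V) :
    Bc N l x = 0 := by
  have := H.rec_all hx dvd_rfl H.not_dvd_N 0
  rw [H.S_N hx, H.S_N hx, H.S_N (H.maps x hx)] at this
  simpa using this.symm

theorem rec' (H : Setup N q l eps V T) {x : ℤ → ℤ → ℤ → ℤ → k} (hx : x ∈ V) {c : ℤ}
    (hN : N ∣ c) (hc : ¬ (l : ℤ) ∣ c) (n : ℕ) :
    S x c ((l : ℤ) ^ (n + 2)) = S (T x) c ((l : ℤ) ^ (n + 1)) - S x c ((l : ℤ) ^ n) := by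
  have := H.rec_all hx hN hc n
  rwa [H.Bc_eq_zero hx, H.lk, one_mul, add_zero] at this

/-- step 5 : dependence on `c mod l` only. -/
theorem S_congr_mod_l (H : Setup N q l eps V T) {c c' : ℤ}
    (hN : N ∣ c) (hN' : N ∣ c') (hc : ¬ (l : ℤ) ∣ c) (hcc : c ≡ c' [ZMOD l]) (n : ℕ) :
    ∀ x ∈ V, S x c ((l : ℤ) ^ n) = S x c' ((l : ℤ) ^ n) := by
  have hc' : ¬ (l : ℤ) ∣ c' := by
    intro h
    exact hc ((Int.ModEq.dvd_iff hcc).mpr h)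
  induction n using Nat.strong_induction_on with
  | _ n ih =>
    intro x hx
    match n, ih with
    | 0, _ => simp [(H.char x hx).S_one hN, (H.char x hx).S_one hN']
    | 1, _ =>
      rw [pow_one]
      refine (H.char x hx).S_congr_left (H.coprime_of_not_dvd hc').symm hN' ?_
      refine Int.modEq_iff_dvd.mpr ?_
      exact H.coprime_l_N.symm.mul_dvd (dvd_sub hN' hN) (Int.modEq_iff_dvd.mp hcc)
    | n + 2, ih =>
      rw [H.rec' hx hN hc, H.rec' hx hN' hc', ih (n + 1) (by omega) _ (H.maps x hx),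
        ih n (by omega) x hx]

end Setup

/-- a function on `ℕ` with periods `E`, `E'` has period `gcd E E'`. -/
theorem periodic_gcd {α : Type*} (f : ℕ → α) (E E' : ℕ) (h : Function.Periodic f E)
    (h' : Function.Periodic f E') : Function.Periodic f (Nat.gcd E E') := by
  induction E, E' using Nat.gcd.induction with
  | H0 n => simpa using h'
  | H1 m n _ ih =>
    rw [Nat.gcd_rec]
    refine ih ?_ h
    intro y
    have h1 : f (y + n % m + m * (n / m)) = f (y + n % m) := by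
      have := (h.nat_mul (n / m)) (y + n % m)
      rwa [mul_comm] at this
    rw [← h1, add_assoc, Nat.mod_add_div, h' y]

namespace Setup

/-- step 6. -/
theorem S_eq_zero_of_periods (H : Setup N q l eps V T) {x : ℤ → ℤ → ℤ → ℤ → k} (hx : x ∈ V)
    {c c' : ℤ} (hN : N ∣ c) (hN' : N ∣ c') (hc : ¬ (l : ℤ) ∣ c) (hcc : c ≡ c' [ZMOD l])
    {E E' : ℕ} (hE : (l : ℤ) ^ E ≡ 1 [ZMOD c]) (hE' : (l : ℤ) ^ E' ≡ 1 [ZMOD c'])
    (hg : Nat.gcd E E' ∣ 2) : S x c (l : ℤ) = 0 := by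
  have hc' : ¬ (l : ℤ) ∣ c' := by
    intro h
    exact hc ((Int.ModEq.dvd_iff hcc).mpr h)
  have per : ∀ y ∈ V, Function.Periodic (fun n : ℕ => S y c ((l : ℤ) ^ n)) 2 := by
    intro y hy
    have p1 : Function.Periodic (fun n : ℕ => S y c ((l : ℤ) ^ n)) E :=
      fun n => H.S_period hy hN hc hE n
    have p2 : Function.Periodic (fun n : ℕ => S y c ((l : ℤ) ^ n)) E' := by
      intro n
      change S y c ((l : ℤ) ^ (n + E')) = S y c ((l : ℤ) ^ n)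
      rw [H.S_congr_mod_l hN hN' hc hcc _ y hy, H.S_congr_mod_l hN hN' hc hcc _ y hy]
      exact H.S_period hy hN' hc' hE' n
    obtain ⟨t, ht⟩ := hg
    have := (periodic_gcd _ E E' p1 p2).nat_mul t
    rw [Nat.cast_id, mul_comm, ← ht] at this
    exact this
  have h2 : ∀ y ∈ V, S y c ((l : ℤ) ^ 2) = 0 := by
    intro y hy
    have := per y hy 0
    simpa [(H.char y hy).S_one hN] using this
  have h3 : S x c ((l : ℤ) ^ 3) = S x c ((l : ℤ) ^ 1) := per x hx 1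
  have h4 := H.rec' hx hN hc 1
  rw [show 1 + 2 = 3 from rfl, show 1 + 1 = 2 from rfl, h3, h2 _ (H.maps x hx), pow_one] at h4
  have h5 : (2 : k) * S x c (l : ℤ) = 0 := by linear_combination h4
  exact (mul_eq_zero.mp h5).resolve_left H.two

end Setup

end Fermat.Agent.S41.IH
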