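import Mathlib

/-!
# S41 / IH / Sym : additive characters of `Γ₀(N)` in coordinates, bottom row symbols

`x : ℤ → ℤ → ℤ → ℤ → k` is thought of as a function of the matrix `[[a,b],[c,d]]`.
Step 0 of the briefing `S41-IHARA (lead)`.
-/

set_option autoImplicit false

namespace Fermat.Agent.S41.IH

variable {k : Type*} [Field k]

/-- `x` is an additive character of `Γ₀(N)` (in coordinates) killing `u = [[1,1],[0,1]]`,
`lN = [[1,0],[N,1]]` and `-1`. -/
structure IsChar (N : ℤ) (x : ℤ → ℤ → ℤ → ℤ → k) : Prop where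
  mul : ∀ a b c d a' b' c' d' : ℤ, a * d - b * c = 1 → N ∣ c → a' * d' - b' * c' = 1 → N ∣ c' →
    x (a * a' + b * c') (a * b' + b * d') (c * a' + d * c') (c * b' + d * d')
      = x a b c d + x a' b' c' d'
  u : x 1 1 0 1 = 0
  lN : x 1 0 N 1 = 0
  neg : x (-1) 0 0 (-1) = 0

/-- the bottom row symbol `[c,d]`. -/
def S (x : ℤ → ℤ → ℤ → ℤ → k) (c d : ℤ) : k := x (Int.gcdB c d) (-Int.gcdA c d) c d

variable {N : ℤ} {x : ℤ → ℤ → ℤ → ℤ → k}

theorem IsChar.mul' (h : IsChar N x) {a b c d a' b' c' d' A B C D : ℤ}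
    (h1 : a * d - b * c = 1) (hc : N ∣ c) (h2 : a' * d' - b' * c' = 1) (hc' : N ∣ c')
    (hA : A = a * a' + b * c') (hB : B = a * b' + b * d') (hC : C = c * a' + d * c')
    (hD : D = c * b' + d * d') :
    x A B C D = x a b c d + x a' b' c' d' := by
  subst hA hB hC hD
  exact h.mul a b c d a' b' c' d' h1 hc h2 hc'

theorem IsChar.one (h : IsChar N x) : x 1 0 0 1 = 0 := by
  have := h.mul' (a := 1) (b := 0) (c := 0) (d := 1) (a' := 1) (b' := 0) (c' := 0) (d' := 1)
    (A := 1) (B := 0) (C := 0) (D := 1) (by ring) (dvd_zero _) (by ring) (dvd_zero _)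
    (by ring) (by ring) (by ring) (by ring)
  simpa using this

theorem IsChar.u_pow (h : IsChar N x) (t : ℤ) : x 1 t 0 1 = 0 := by
  induction t using Int.induction_on with
  | zero => exact h.one
  | succ i ih =>
    have := h.mul' (a := 1) (b := i) (c := 0) (d := 1) (a' := 1) (b' := 1) (c' := 0) (d' := 1)
      (A := 1) (B := i + 1) (C := 0) (D := 1) (by ring) (dvd_zero _) (by ring) (dvd_zero _)
      (by ring) (by ring) (by ring) (by ring)
    rw [this, ih, h.u, add_zero]
  | pred i ih =>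
    have := h.mul' (a := 1) (b := -i - 1) (c := 0) (d := 1) (a' := 1) (b' := 1) (c' := 0) (d' := 1)
      (A := 1) (B := -i) (C := 0) (D := 1) (by ring) (dvd_zero _) (by ring) (dvd_zero _)
      (by ring) (by ring) (by ring) (by ring)
    rw [ih, h.u, add_zero] at this
    exact this.symm

theorem IsChar.lN_pow (h : IsChar N x) (s : ℤ) : x 1 0 (N * s) 1 = 0 := by
  induction s using Int.induction_on with
  | zero => simpa using h.one
  | succ i ih =>
    have := h.mul' (a := 1) (b := 0) (c := N * i) (d := 1) (a' := 1) (b' := 0) (c' := N) (d' := 1)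
      (A := 1) (B := 0) (C := N * (i + 1)) (D := 1) (by ring) (Dvd.intro _ rfl) (by ring)
      dvd_rfl (by ring) (by ring) (by ring) (by ring)
    rw [this, ih, h.lN, add_zero]
  | pred i ih =>
    have := h.mul' (a := 1) (b := 0) (c := N * (-i - 1)) (d := 1) (a' := 1) (b' := 0) (c' := N)
      (d' := 1) (A := 1) (B := 0) (C := N * (-i)) (D := 1) (by ring) (Dvd.intro _ rfl) (by ring)
      dvd_rfl (by ring) (by ring) (by ring) (by ring)
    rw [ih, h.lN, add_zero] at this
    exact this.symm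

/-- the Bezout matrix of a coprime bottom row has determinant one. -/
theorem gcdB_mul_sub (c d : ℤ) (hcd : IsCoprime c d) :
    Int.gcdB c d * d - (-Int.gcdA c d) * c = 1 := by
  have h1 := Int.gcd_eq_gcd_ab c d
  rw [Int.isCoprime_iff_gcd_eq_one.mp hcd] at h1
  push_cast at h1
  linarith

theorem isCoprime_of_det {a b c d : ℤ} (h : a * d - b * c = 1) : IsCoprime c d :=
  ⟨-b, a, by linarith⟩

/-- `x` depends only on the bottom row. -/
theorem IsChar.eq_S (h : IsChar N x) {a b c d : ℤ} (hdet : a * d - b * c = 1) (hc : N ∣ c) :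
    x a b c d = S x c d := by
  have h0 := gcdB_mul_sub c d (isCoprime_of_det hdet)
  obtain ⟨a0, ha0⟩ : ∃ a0, a0 = Int.gcdB c d := ⟨_, rfl⟩
  obtain ⟨b0, hb0⟩ : ∃ b0, b0 = -Int.gcdA c d := ⟨_, rfl⟩
  rw [S, ← ha0, ← hb0]
  rw [← ha0, ← hb0] at h0
  have := h.mul' (a := 1) (b := b * a0 - a * b0) (c := 0) (d := 1) (a' := a0) (b' := b0) (c' := c)
    (d' := d) (A := a) (B := b) (C := c) (D := d) (by ring) (dvd_zero _) h0 hc
    (by linear_combination (-a) * h0 + a0 * hdet)
    (by linear_combination (-b) * h0 + b0 * hdet) (by ring) (by ring)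
  rw [this, h.u_pow, zero_add]

/-- existence of a matrix with a given bottom row. -/
theorem exists_det {c d : ℤ} (hcd : IsCoprime c d) : ∃ a b : ℤ, a * d - b * c = 1 :=
  ⟨_, _, gcdB_mul_sub c d hcd⟩

/-- (R1) -/
theorem IsChar.S_add_mul_right (h : IsChar N x) {c d : ℤ} (hcd : IsCoprime c d) (hc : N ∣ c)
    (t : ℤ) : S x c (d + t * c) = S x c d := by
  obtain ⟨a, b, hdet⟩ := exists_det hcd
  have := h.mul' (a := a) (b := b) (c := c) (d := d) (a' := 1) (b' := t) (c' := 0) (d' := 1)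
    (A := a) (B := b + t * a) (C := c) (D := d + t * c) hdet hc (by ring) (dvd_zero _)
    (by ring) (by ring) (by ring) (by ring)
  rw [h.u_pow, add_zero, h.eq_S hdet hc] at this
  rw [← this]
  exact (h.eq_S (by linear_combination hdet) hc).symm

/-- (R2) -/
theorem IsChar.S_add_mul_left (h : IsChar N x) {c d : ℤ} (hcd : IsCoprime c d) (hc : N ∣ c)
    (s : ℤ) : S x (c + N * s * d) d = S x c d := by
  obtain ⟨a, b, hdet⟩ := exists_det hcd
  have := h.mul' (a := a) (b := b) (c := c) (d := d) (a' := 1) (b' := 0) (c' := N * s) (d' := 1)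
    (A := a + N * s * b) (B := b) (C := c + N * s * d) (D := d) hdet hc (by ring)
    (Dvd.intro _ rfl) (by ring) (by ring) (by ring) (by ring)
  rw [h.lN_pow, add_zero, h.eq_S hdet hc] at this
  rw [← this]
  exact (h.eq_S (by linear_combination hdet)
    (dvd_add hc (Dvd.intro _ (by ring : N * (s * d) = N * s * d)))).symm

/-- (R1), congruence form. -/
theorem IsChar.S_congr_right (h : IsChar N x) {c d d' : ℤ} (hcd : IsCoprime c d) (hc : N ∣ c)
    (hd : d' ≡ d [ZMOD c]) : S x c d' = S x c d := by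
  obtain ⟨t, ht⟩ := hd.symm.dvd
  have : d' = d + t * c := by linear_combination ht
  rw [this, h.S_add_mul_right hcd hc]

/-- (R2), congruence form. -/
theorem IsChar.S_congr_left (h : IsChar N x) {c c' d : ℤ} (hcd : IsCoprime c d) (hc : N ∣ c)
    (hd : c' ≡ c [ZMOD N * d]) : S x c' d = S x c d := by
  obtain ⟨t, ht⟩ := hd.symm.dvd
  have : c' = c + N * t * d := by linear_combination ht
  rw [this, h.S_add_mul_left hcd hc]

theorem IsChar.S_one (h : IsChar N x) {c : ℤ} (hc : N ∣ c) : S x c 1 = 0 := by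
  obtain ⟨s, rfl⟩ := hc
  rw [← h.eq_S (a := 1) (b := 0) (by ring) (Dvd.intro _ rfl), h.lN_pow]

/-- product rule for bottom rows. -/
theorem IsChar.S_mul (h : IsChar N x) {c d a' b' c' d' : ℤ} (hcd : IsCoprime c d) (hc : N ∣ c)
    (h2 : a' * d' - b' * c' = 1) (hc' : N ∣ c') :
    S x (c * a' + d * c') (c * b' + d * d') = S x c d + S x c' d' := by
  obtain ⟨a, b, hdet⟩ := exists_det hcd
  have := h.mul a b c d a' b' c' d' hdet hc h2 hc'
  rw [h.eq_S hdet hc, h.eq_S h2 hc'] at this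
  rw [← this]
  refine (h.eq_S ?_ (dvd_add (hc.mul_right _) (hc'.mul_left _))).symm
  linear_combination (a' * d' - b' * c') * hdet + h2

theorem IsChar.S_neg (h : IsChar N x) {c d : ℤ} (hcd : IsCoprime c d) (hc : N ∣ c) :
    S x (-c) (-d) = S x c d := by
  have := h.S_mul (c := c) (d := d) (a' := -1) (b' := 0) (c' := 0) (d' := -1) hcd hc (by ring)
    (dvd_zero _)
  rw [← h.eq_S (a := -1) (b := 0) (c := 0) (d := -1) (by ring) (dvd_zero _), h.neg, add_zero] at this
  rw [← this]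
  congr 1 <;> ring

/-- Ihara's condition on bottom rows: `[q c, d] = ε [c, d]`. -/
def IsIhara (N : ℤ) (q : ℕ) (eps : k) (x : ℤ → ℤ → ℤ → ℤ → k) : Prop :=
  ∀ c d : ℤ, N ∣ c → IsCoprime ((q : ℤ) * c) d → S x ((q : ℤ) * c) d = eps * S x c d

theorem IsIhara.pow {q : ℕ} {eps : k} (h : IsIhara N q eps x) (heps : eps * eps = 1) {c d : ℤ}
    (hc : N ∣ c) (hq : IsCoprime (q : ℤ) d) (hcd : IsCoprime c d) (i : ℕ) :
    S x ((q : ℤ) ^ (2 * i) * c) d = S x c d := by
  induction i with
  | zero => simp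
  | succ i ih =>
    have e : (q : ℤ) ^ (2 * (i + 1)) * c = (q : ℤ) * ((q : ℤ) * ((q : ℤ) ^ (2 * i) * c)) := by ring
    have h1 : IsCoprime ((q : ℤ) ^ (2 * i) * c) d := (hq.pow_left).mul_left hcd
    have h2 : IsCoprime ((q : ℤ) * ((q : ℤ) ^ (2 * i) * c)) d := hq.mul_left h1
    rw [e, h _ _ ((hc.mul_left _).mul_left _) (hq.mul_left h2), h _ _ (hc.mul_left _) h2, ih,
      ← mul_assoc, heps, one_mul]

end Fermat.Agent.S41.IH
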